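import Mathlib
import Fermat.Agent.S52.Seams
import Fermat.Agent.S51.Galois

/-!
# S52, node [IRR3] (prefix `s52i_`)

`s52i_main : s52_Irr3_stmt`: if `j(W) = c₄³/Δ` is not of the form `(h+27)(h+3)³/h` with `h ∈ ℚ`
(no rational point of `X₀(3)` above `j(W)`), then `W[3]` is irreducible.

Proof.  If `W[3]` is reducible, the `3`-division polynomial
`ψ₃ = 3x⁴ + b₂x³ + 3b₄x² + 3b₆x + b₈` has a rational root `r`
(`Fermat.Agent.S51.exists_rat_root_triPoly`).  Put `A := 6r² + b₂r + b₄` and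
`B := 4r³ + b₂r² + 2b₄r + b₆`.  Modulo `ψ₃(r) = 0` one has the polynomial identities
`A² = (12r + b₂)B`, `Δ = A³ - 27B²` and `c₄B² = A(A³ - 24B²)` (moving the `3`-torsion point to the
origin gives `y² + a₁'xy + a₃'y = x³` with `a₁'³/a₃' = A³/B²`).  Hence `B ≠ 0` and
`h := A³/B² - 27` is a rational point of `X₀(3)` above `j(W)`.
-/

set_option autoImplicit false
set_option linter.style.haveILetI false

namespace Fermat.Agent.S52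

open WeierstrassCurve

/-- The explicit point of `X₀(3)` attached to a rational root of the `3`-division polynomial. -/
theorem s52i_alg (E : WeierstrassCurve ℚ) (hΔ : E.Δ ≠ 0) (r : ℚ)
    (hr : Fermat.Agent.S51.triPoly E r = 0) :
    ∃ h : ℚ, (h + 27) * (h + 3) ^ 3 * E.Δ = E.c₄ ^ 3 * h := by
  have hψ : 3 * r ^ 4 + E.b₂ * r ^ 3 + 3 * E.b₄ * r ^ 2 + 3 * E.b₆ * r + E.b₈ = 0 := hr
  have hb : 4 * E.b₈ = E.b₂ * E.b₆ - E.b₄ ^ 2 := E.b_relation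
  -- the three identities modulo `ψ₃`
  have hI0 : (6 * r ^ 2 + E.b₂ * r + E.b₄) ^ 2 =
      (12 * r + E.b₂) * (4 * r ^ 3 + E.b₂ * r ^ 2 + 2 * E.b₄ * r + E.b₆) := by
    linear_combination (-4 : ℚ) * hψ + hb
  have hI2 : E.Δ = (6 * r ^ 2 + E.b₂ * r + E.b₄) ^ 3 -
      27 * (4 * r ^ 3 + E.b₂ * r ^ 2 + 2 * E.b₄ * r + E.b₆) ^ 2 := by
    rw [WeierstrassCurve.Δ]
    linear_combination (-(-72 * r ^ 2 - 12 * E.b₂ * r + E.b₂ ^ 2 - 36 * E.b₄)) * hψ -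
      ((E.b₂ ^ 2 - (-72 * r ^ 2 - 12 * E.b₂ * r + E.b₂ ^ 2 - 36 * E.b₄)) / 4) * hb
  have hI1 : E.c₄ * (4 * r ^ 3 + E.b₂ * r ^ 2 + 2 * E.b₄ * r + E.b₆) ^ 2 =
      (6 * r ^ 2 + E.b₂ * r + E.b₄) * ((6 * r ^ 2 + E.b₂ * r + E.b₄) ^ 3 -
        24 * (4 * r ^ 3 + E.b₂ * r ^ 2 + 2 * E.b₄ * r + E.b₆) ^ 2) := by
    rw [WeierstrassCurve.c₄]
    linear_combination
      (336 * r ^ 4 + 112 * E.b₂ * r ^ 3 + (8 * E.b₂ ^ 2 + 144 * E.b₄) * r ^ 2 +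
        (16 * E.b₂ * E.b₄ + 48 * E.b₆) * r + 4 * E.b₂ * E.b₆ + 4 * E.b₄ ^ 2) * hψ -
      ((336 * r ^ 4 + 112 * E.b₂ * r ^ 3 + (8 * E.b₂ ^ 2 + 144 * E.b₄) * r ^ 2 +
        (16 * E.b₂ * E.b₄ + 48 * E.b₆) * r + 4 * E.b₂ * E.b₆ + 4 * E.b₄ ^ 2) / 4) * hb
  generalize 6 * r ^ 2 + E.b₂ * r + E.b₄ = A at hI0 hI1 hI2
  generalize 4 * r ^ 3 + E.b₂ * r ^ 2 + 2 * E.b₄ * r + E.b₆ = B at hI0 hI1 hI2
  -- `B ≠ 0`
  have hB : B ≠ 0 := by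
    intro hB0
    rw [hB0, mul_zero] at hI0
    have hA0 : A = 0 := pow_eq_zero_iff (two_ne_zero) |>.1 hI0
    apply hΔ
    rw [hI2, hA0, hB0]
    ring
  have hB2 : B ^ 2 ≠ 0 := pow_ne_zero 2 hB
  -- `u := A³/B²`
  obtain ⟨u, hu⟩ : ∃ u : ℚ, u * B ^ 2 = A ^ 3 := ⟨A ^ 3 / B ^ 2, div_mul_cancel₀ _ hB2⟩
  have hc4 : E.c₄ = A * (u - 24) := by
    apply mul_right_cancel₀ hB2
    rw [hI1]
    linear_combination (-A) * hu
  have hΔ' : E.Δ = (u - 27) * B ^ 2 := by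
    rw [hI2]
    linear_combination (-1 : ℚ) * hu
  refine ⟨u - 27, ?_⟩
  rw [hc4, hΔ']
  linear_combination ((u - 24) ^ 3 * (u - 27)) * hu

/-- **[IRR3]** -/
theorem s52i_main : s52_Irr3_stmt := by
  intro W hΔ hno
  by_contra hirr
  have hΔQ : (W.map (Int.castRingHom ℚ)).Δ ≠ 0 := by
    rw [WeierstrassCurve.map_Δ]
    simpa using hΔ
  haveI : (W.map (Int.castRingHom ℚ)).IsElliptic := ⟨isUnit_iff_ne_zero.2 hΔQ⟩
  obtain ⟨r, hr⟩ := Fermat.Agent.S51.exists_rat_root_triPoly (W.map (Int.castRingHom ℚ)) hirr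
  obtain ⟨h, hh⟩ := s52i_alg (W.map (Int.castRingHom ℚ)) hΔQ r hr
  apply hno h
  rw [WeierstrassCurve.map_Δ, WeierstrassCurve.map_c₄] at hh
  simpa using hh

end Fermat.Agent.S52
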