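/-
Project S52 (the 3-5 switch), node [IRR3], the SPECIALISED half (helper17).  Prefix `s52i_`.
`E[3]` IRREDUCIBLE FROM A QUARTIC WITHOUT RATIONAL ROOT, in terms of `(c₄, c₆)` only:

* `s52i_quartic c4 c6 X = X⁴ - 54 c₄ X² - 216 c₆ X - 243 c₄²` (one third of the 3-division polynomial
  of `Y² = X³ - 27 c₄ X - 54 c₆`);
* `s52i_tri_eq`  : `6⁸ · ψ₃(W)(x) = 3 · quartic (c₄(W), c₆(W)) (36 x + 3 b₂)` (any commutative ring);
* `s52i_irr3`    : `W' : WeierstrassCurve ℤ`, `Δ ≠ 0`, the quartic of `(c₄(W'), c₆(W'))` has no rational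
                   root  ⟹  `W'.ModRepIsIrreducible 3`   (S51's `exists_rat_root_triPoly`).
So for a family `(C4(s), C6(s))` the polynomial to feed into [HIT] is
`X⁴ - 54 C4(s) X² - 216 C6(s) X - 243 C4(s)²`.
-/
import Mathlib
import Fermat.Prelude.Def_FLTPrelim_ModularRep
import Fermat.Agent.S51.Galois

set_option autoImplicit false

namespace Fermat.Agent.S52

open WeierstrassCurve Fermat.Agent.S51

/-- one third of the `3`-division polynomial of `Y² = X³ - 27 c₄ X - 54 c₆`. -/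
def s52i_quartic {R : Type*} [CommRing R] (c4 c6 X : R) : R :=
  X ^ 4 - 54 * c4 * X ^ 2 - 216 * c6 * X - 243 * c4 ^ 2

/-- the `3`-division polynomial in terms of `(c₄, c₆)`. -/
theorem s52i_tri_eq {F : Type*} [Field F] (W : WeierstrassCurve F) (x : F) :
    6 ^ 8 * triPoly W x = 3 * s52i_quartic W.c₄ W.c₆ (36 * x + 3 * W.b₂) := by
  simp only [triPoly, s52i_quartic, WeierstrassCurve.c₄, WeierstrassCurve.c₆,
    WeierstrassCurve.b₂, WeierstrassCurve.b₄, WeierstrassCurve.b₆, WeierstrassCurve.b₈]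
  ring

/-- **[IRR3], specialised half**: no rational root of the quartic ⟹ `E[3]` irreducible. -/
theorem s52i_irr3 (W' : WeierstrassCurve ℤ) (hΔ : W'.Δ ≠ 0)
    (h : ∀ X : ℚ, s52i_quartic (W'.c₄ : ℚ) (W'.c₆ : ℚ) X ≠ 0) : W'.ModRepIsIrreducible 3 := by
  have hEΔ : (W'.map (Int.castRingHom ℚ)).Δ ≠ 0 := by
    rw [map_Δ]
    simpa using hΔ
  have hE : (W'.map (Int.castRingHom ℚ)).IsElliptic := ⟨isUnit_iff_ne_zero.mpr hEΔ⟩
  by_contra hirr
  obtain ⟨r, hr⟩ := exists_rat_root_triPoly (W'.map (Int.castRingHom ℚ)) hirr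
  have h1 := s52i_tri_eq (W'.map (Int.castRingHom ℚ)) r
  rw [hr, mul_zero, map_c₄, map_c₆] at h1
  have h2 : s52i_quartic (((Int.castRingHom ℚ) W'.c₄)) ((Int.castRingHom ℚ) W'.c₆)
      (36 * r + 3 * (W'.map (Int.castRingHom ℚ)).b₂) = 0 := by
    have h3 : (3 : ℚ) ≠ 0 := by norm_num
    exact (mul_eq_zero.mp h1.symm).resolve_left h3
  exact h _ h2

end Fermat.Agent.S52
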